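import Fermat.Agent.LO3.Line
import Fermat.Agent.LO4.Coset

set_option autoImplicit false

/-!
# The local data at `p`, good reduction, reducible case
-/

namespace Fermat.Agent.LO3

open WeierstrassCurve WeierstrassCurve.Affine WeierstrassCurve.Affine.Point Polynomial
open Fermat.Agent.EC (IsInt InE1 xX xZ IsKummer TrivMod)
open Fermat.Agent.ECP Fermat.Agent.ELoc

local notation "Qb" => AlgebraicClosure ℚ
local notation "GQ" => (AlgebraicClosure ℚ ≃ₐ[ℚ] AlgebraicClosure ℚ)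

/-- **[LO]** -/
theorem exists_data (W : WeierstrassCurve ℤ) {p : ℕ} [hp : Fact p.Prime] (hp2 : p ≠ 2)
    (hpΔ : ¬ (p : ℤ) ∣ W.Δ) {A : ValuationSubring Qb} (hA : A.LiesOverPrime p) {ζ : Qb}
    (hζ : IsPrimitiveRoot ζ p)
    (N : AddSubgroup (Submodule.torsionBy ℤ ((W.map (Int.castRingHom ℚ))⁄Qb).Point (p : ℤ)))
    (hN : N ≠ ⊤) (hI : ∀ s ∈ A.inertiaSubgroupIn ℚ,
      ∀ v : Submodule.torsionBy ℤ ((W.map (Int.castRingHom ℚ))⁄Qb).Point (p : ℤ), s • v - v ∈ N) :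
    ∃ (e x : Submodule.torsionBy ℤ ((W.map (Int.castRingHom ℚ))⁄Qb).Point (p : ℤ))
      (J₀ : Subgroup GQ) (β : Qb), e ≠ 0 ∧ (∀ k : ℕ, x ≠ k • e) ∧
      (∀ s ∈ A.inertiaSubgroupIn ℚ, ∀ k : ℕ, s ζ = ζ ^ k → s • e = k • e) ∧
      (∀ s ∈ A.inertiaSubgroupIn ℚ, ∃ κ : ℕ, s • x = x + κ • e) ∧ (∀ s ∈ J₀, s • x = x) ∧
      LLc.KHyp A p J₀ (A.valuation (ζ - 1)) β := by
  have hq := hp.out
  have hpK : (p : Qb) ≠ 0 := by exact_mod_cast hq.ne_zero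
  obtain ⟨hfin, -⟩ := torsion_card_le (W := ((W.map (Int.castRingHom ℚ))⁄Qb)) hq hp2 hpK
  obtain ⟨b, hb0, hb, hbN⟩ := exists_line W hq hp2 hpΔ N hN
  exact exists_data_of_ord W hp2 hpΔ hA hζ (LO4.exists_not_mem_E1 (W.map (Int.castRingHom ℚ)) hq hp2
    hA (ERep.isInt_model (A := A) (L := Qb) W) (val_Δ W hq hA hpΔ) hfin (card_tors W hpΔ hq.pos).ge
    hb0 hb fun s hs P hP => inertia_line W hI hbN hs P hP)

end Fermat.Agent.LO3
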