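import Fermat.Agent.LO3.Red

set_option autoImplicit false

/-!
# Adapted basis of the `p`-torsion, good ordinary reduction
-/

namespace Fermat.Agent.LO3

open WeierstrassCurve WeierstrassCurve.Affine WeierstrassCurve.Affine.Point Polynomial
open Fermat.Agent.EC (IsInt InE1 xX xZ IsKummer TrivMod)
open Fermat.Agent.ECP Fermat.Agent.ELoc

variable {R S K Γ₀ : Type*} [CommRing R] [CommRing S] [Field K] [DecidableEq K]
  [LinearOrderedCommGroupWithZero Γ₀] [Algebra R S] [Algebra R K] [Algebra S K]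
  [IsScalarTower R S K] {v : Valuation K Γ₀} {W' : Affine R}

/-- inertia acts trivially on the reduction -/
theorem smul_sub_mem_E1 (hW : IsInt v (W'⁄K)) (hΔ : v (W'⁄K).Δ = 1) {σ : K ≃ₐ[S] K}
    (hσ : TrivMod v σ) (P : (W'⁄K).Point) : σ • P - P ∈ E1 v hW := by
  refine EC.smul_sub_inE1 hW hσ P fun h => ?_
  rcases P with _ | ⟨x, y, h'⟩
  · simp [← zero_def] at h
  · exact hW.ns_of_Δ hΔ (by simpa using h)

/-- **Local structure of the `p`-torsion**, good ordinary reduction. -/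
theorem exists_basis_good [IsAlgClosed K] (hW : IsInt v (W'⁄K)) (hΔ : v (W'⁄K).Δ = 1)
    (h4 : v (4 : K) = 1) {p : ℕ} (hp : p.Prime) (hp2 : p ≠ 2) (hpK : (p : K) ≠ 0)
    (hvp : v (p : K) < 1) (hfin : {P : (W'⁄K).Point | p • P = 0}.Finite)
    (hcard : p ^ 2 ≤ {P : (W'⁄K).Point | p • P = 0}.ncard)
    (hord : ∃ P : (W'⁄K).Point, p • P = 0 ∧ P ∉ E1 v hW) {ζ : K} (hζ : IsPrimitiveRoot ζ p) :
    ∃ (a x : (W'⁄K).Point) (c : ℕ), a ≠ 0 ∧ p • a = 0 ∧ a ∈ E1 v hW ∧ x ≠ 0 ∧ p • x = 0 ∧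
      x ∉ E1 v hW ∧ v (xc x + c) = 1 ∧
      (∀ Q : (W'⁄K).Point, p • Q = 0 → ∃ i j : ℕ, Q = i • a + j • x) ∧
      (∀ Q : (W'⁄K).Point, p • Q = 0 → Q ∈ E1 v hW → ∃ i : ℕ, Q = i • a) ∧
      v (xc a) * v (ζ - 1) ^ 2 = 1 ∧
      ∀ σ : K ≃ₐ[S] K, TrivMod v σ → (∀ k : ℕ, σ ζ = ζ ^ k → σ • a = k • a) ∧
        ∃ κ : ℕ, σ • x = x + κ • a ∧
          (¬ p ∣ κ → v (σ (xc x + c) / (xc x + c) - 1) = v (ζ - 1)) := by
  have hodd := hp.odd_of_ne_two hp2
  obtain ⟨a, ha0, ha, ha1⟩ := exists_mem_E1 hW hΔ h4 hp hp2 hpK hvp hfin hcard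
  obtain ⟨x, hx, hx1⟩ := hord
  have hle := (torsion_card_le (W := (W'⁄K)) hp hp2 hpK).2
  have hgen : ∀ Q : (W'⁄K).Point, p • Q = 0 → Q ∈ E1 v hW → ∃ i : ℕ, Q = i • a := by
    intro Q hQ hQ1
    by_contra hcon
    push Not at hcon
    obtain ⟨i, j, hij⟩ := exists_repr hp hfin hle ha ha0 hQ hcon hx
    apply hx1
    rw [hij]
    exact add_mem (nsmul_mem ha1 i) (nsmul_mem hQ1 j)
  have hgen2 : ∀ Q : (W'⁄K).Point, p • Q = 0 → ∃ i j : ℕ, Q = i • a + j • x := by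
    intro Q hQ
    refine exists_repr hp hfin hle ha ha0 hx (fun k hk => hx1 ?_) hQ
    rw [hk]
    exact nsmul_mem ha1 k
  have hx0 : x ≠ 0 := by rintro rfl; exact hx1 (zero_mem _)
  have hval := val_xc_gen hW hΔ h4 hp hp2 hpK hvp hfin hcard ha0 ha ha1 hgen
  have hvζ := val_zeta (v := v) hp hζ
  have hmain : v (xc a) * v (ζ - 1) ^ 2 = 1 := by
    have h1 : (v (xc a) * v (ζ - 1) ^ 2) ^ ((p - 1) / 2) = 1 := by
      rw [mul_pow, ← pow_mul]
      have h2 : 2 * ((p - 1) / 2) = p - 1 := by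
        obtain ⟨k, hk⟩ := hodd
        omega
      rw [h2, hvζ, mul_comm, hval]
    have hne : (p - 1) / 2 ≠ 0 := by
      obtain ⟨k, hk⟩ := hodd
      have := hp.two_le
      omega
    exact (pow_eq_one_iff_of_nonneg zero_le hne).mp h1
  have hζ1 : ζ ≠ 1 := hζ.ne_one hp.one_lt
  have hvx : v (xc x) ≤ 1 := by
    rw [mem_E1_iff' hW hx0, not_lt] at hx1
    exact hx1
  obtain ⟨c, hc⟩ : ∃ c : ℕ, v (xc x + c) = 1 := by
    rcases hvx.lt_or_eq with h | h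
    · refine ⟨1, ?_⟩
      rw [Nat.cast_one, Valuation.map_add_eq_of_lt_right v (by rw [map_one]; exact h), map_one]
    · exact ⟨0, by rw [Nat.cast_zero, add_zero]; exact h⟩
  refine ⟨a, x, c, ha0, ha, ha1, hx0, hx, hx1, hc, hgen2, hgen, hmain, ?_⟩
  intro σ hσ
  constructor
  · intro k hk
    have hσa : p • (σ • a) = 0 := by rw [smul_comm, ha, smul_zero]
    have hσa1 : σ • a ∈ E1 v hW := by
      have h2 := add_mem (smul_sub_mem_E1 hW hΔ hσ a) ha1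
      rwa [sub_add_cancel] at h2
    obtain ⟨n, hn⟩ := hgen _ hσa hσa1
    exact smul_gen hW h4 hp hvp ha0 ha ha1 hζ1 hmain hσ hn hk
  · have h1 := smul_sub_mem_E1 hW hΔ hσ x
    have h2 : p • (σ • x - x) = 0 := by
      rw [nsmul_sub, hx, sub_zero, smul_comm, hx, smul_zero]
    obtain ⟨κ, hκ⟩ := hgen _ h2 h1
    have h3 : σ • x = x + κ • a := by rw [← hκ]; abel
    refine ⟨κ, h3, fun hκp => ?_⟩
    have hκa := xc_nsmul hW hp hvp ha0 ha1 hκp
    have h5 := val_diff hW h4 hx0 hvx (val_tc hW hΔ hodd hx hx1) hκa.1 (nsmul_mem ha1 κ)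
      (g := v (ζ - 1)) (by rw [hκa.2.1]; exact hmain)
    rw [← h3, xc_smul' σ hx0] at h5
    have hu0 : xc x + (c : K) ≠ 0 := by
      intro h0
      rw [h0, _root_.map_zero] at hc
      exact zero_ne_one hc
    have h6 : σ (xc x + c) / (xc x + c) - 1 = (σ (xc x) - xc x) / (xc x + c) := by
      rw [_root_.map_add, map_natCast]
      field_simp
      ring
    rw [h6, map_div₀, hc, div_one]
    exact h5

end Fermat.Agent.LO3
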