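import Fermat.Agent.LO3.Basis
import Fermat.Agent.LLw.Orb
import Fermat.Agent.ERep.Local
import Fermat.Agent.WP.Torsion
import Fermat.Agent.KField.Step

set_option autoImplicit false

/-!
# The local data at `p`, good ordinary reduction
-/

namespace Fermat.Agent.LO3

open WeierstrassCurve WeierstrassCurve.Affine WeierstrassCurve.Affine.Point Polynomial
open Fermat.Agent.EC (IsInt InE1 xX xZ IsKummer TrivMod)
open Fermat.Agent.ECP Fermat.Agent.ELoc

local notation "Qb" => AlgebraicClosure ℚ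
local notation "GQ" => (AlgebraicClosure ℚ ≃ₐ[ℚ] AlgebraicClosure ℚ)

section

variable (W : WeierstrassCurve ℤ) {p : ℕ} (A : ValuationSubring Qb)

/-- the curve is elliptic -/
theorem isElliptic_of_not_dvd (hpΔ : ¬ (p : ℤ) ∣ W.Δ) :
    (W.map (Int.castRingHom ℚ)).IsElliptic := by
  refine ⟨isUnit_iff_ne_zero.mpr ?_⟩
  rw [WeierstrassCurve.map_Δ]
  intro h
  apply hpΔ
  have h1 : W.Δ = 0 := by
    rw [eq_intCast] at h
    exact_mod_cast h
  rw [h1]
  exact dvd_zero _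

theorem card_tors (hpΔ : ¬ (p : ℤ) ∣ W.Δ) (hp : 0 < p) :
    {Q : ((W.map (Int.castRingHom ℚ))⁄Qb).Point | p • Q = 0}.ncard = p ^ 2 := by
  have := isElliptic_of_not_dvd W hpΔ
  have h := WP.card_torsion (W' := W.map (Int.castRingHom ℚ))
    (IsAlgClosed.lift : AlgebraicClosure ℚ →ₐ[ℚ] ℂ) hp
  exact h

theorem val_four {p : ℕ} (hp : p.Prime) (hp2 : p ≠ 2) {A : ValuationSubring Qb}
    (hA : A.LiesOverPrime p) : A.valuation (4 : Qb) = 1 := by
  have hvq : A.valuation (p : Qb) < 1 := A.mem_nonunits_iff.mp hA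
  have hv2 : A.valuation (2 : Qb) = 1 := by
    have : ¬ (p : ℤ) ∣ (2 : ℤ) := by
      intro h
      exact hp2 ((Nat.prime_dvd_prime_iff_eq hp Nat.prime_two).mp (by exact_mod_cast h))
    exact_mod_cast S05.val_int_eq_one hp hvq this
  have : (4 : Qb) = 2 ^ 2 := by norm_num
  rw [this, map_pow, hv2, one_pow]

theorem val_Δ {p : ℕ} (hp : p.Prime) {A : ValuationSubring Qb} (hA : A.LiesOverPrime p)
    (hpΔ : ¬ (p : ℤ) ∣ W.Δ) : A.valuation ((W.map (Int.castRingHom ℚ))⁄Qb).Δ = 1 := by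
  rw [ERep.Δ_model]
  exact ERep.val_int_eq_one hp (A.mem_nonunits_iff.mp hA) hpΔ

/-- **Local data at `p`**, good reduction, some point of `E[p]` outside the kernel of reduction. -/
theorem exists_data_of_ord [hp : Fact p.Prime] (hp2 : p ≠ 2) (hpΔ : ¬ (p : ℤ) ∣ W.Δ)
    {A : ValuationSubring Qb} (hA : A.LiesOverPrime p) {ζ : Qb} (hζ : IsPrimitiveRoot ζ p)
    (hord : ∃ P : ((W.map (Int.castRingHom ℚ))⁄Qb).Point, p • P = 0 ∧
      P ∉ E1 A.valuation (ERep.isInt_model (A := A) (L := Qb) W)) :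
    ∃ (e x : Submodule.torsionBy ℤ ((W.map (Int.castRingHom ℚ))⁄Qb).Point (p : ℤ))
      (J₀ : Subgroup GQ) (β : Qb), e ≠ 0 ∧ (∀ k : ℕ, x ≠ k • e) ∧
      (∀ s ∈ A.inertiaSubgroupIn ℚ, ∀ k : ℕ, s ζ = ζ ^ k → s • e = k • e) ∧
      (∀ s ∈ A.inertiaSubgroupIn ℚ, ∃ κ : ℕ, s • x = x + κ • e) ∧ (∀ s ∈ J₀, s • x = x) ∧
      LLc.KHyp A p J₀ (A.valuation (ζ - 1)) β := by
  have hq := hp.out
  have hvq : A.valuation (p : Qb) < 1 := A.mem_nonunits_iff.mp hA
  have hpK : (p : Qb) ≠ 0 := by exact_mod_cast hq.ne_zero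
  obtain ⟨hfin, -⟩ := torsion_card_le (W := ((W.map (Int.castRingHom ℚ))⁄Qb)) hq hp2 hpK
  have hcard := (card_tors W hpΔ hq.pos).ge
  obtain ⟨a, x, c, ha0, ha, ha1, hx0, hx, hx1, hc, hspan, -, -, hact⟩ :=
    exists_basis_good (S := ℚ) (v := A.valuation) (W' := W.map (Int.castRingHom ℚ))
      (ERep.isInt_model (A := A) (L := Qb) W) (val_Δ W hq hA hpΔ) (val_four hq hp2 hA) hq hp2 hpK
      hvq hfin hcard hord hζ
  have hmem : ∀ Q : ((W.map (Int.castRingHom ℚ))⁄Qb).Point, p • Q = 0 →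
      Q ∈ Submodule.torsionBy ℤ ((W.map (Int.castRingHom ℚ))⁄Qb).Point (p : ℤ) := by
    intro Q hQ
    rw [Submodule.mem_torsionBy_iff, natCast_zsmul]
    exact hQ
  set e' : Submodule.torsionBy ℤ ((W.map (Int.castRingHom ℚ))⁄Qb).Point (p : ℤ) :=
    ⟨a, hmem a ha⟩ with he'
  set x' : Submodule.torsionBy ℤ ((W.map (Int.castRingHom ℚ))⁄Qb).Point (p : ℤ) :=
    ⟨x, hmem x hx⟩ with hx'
  have he0 : e' ≠ 0 := fun h0 => ha0 (congrArg Subtype.val h0)
  have hxe : ∀ k : ℕ, x' ≠ k • e' := by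
    intro m hm
    apply hx1
    have h1 : x = m • a := congrArg Subtype.val hm
    rw [h1]
    exact nsmul_mem ha1 m
  have hpe : p • e' = 0 := Subtype.ext ha
  have hpx : p • x' = 0 := Subtype.ext hx
  have hIe : ∀ s ∈ A.inertiaSubgroupIn ℚ, ∀ k : ℕ, s ζ = ζ ^ k → s • e' = k • e' := by
    intro s hs k hk
    exact Subtype.ext ((hact s (EC.trivMod_of_mem_inertia A hs)).1 k hk)
  have hIx : ∀ s ∈ A.inertiaSubgroupIn ℚ, ∃ κ : ℕ, s • x' = x' + κ • e' := by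
    intro s hs
    obtain ⟨-, κ, h2, -⟩ := hact s (EC.trivMod_of_mem_inertia A hs)
    exact ⟨κ, Subtype.ext h2⟩
  obtain ⟨x'', J₀, β, -, hJx, hx'', hIx'', H⟩ := LLw.exists_good_basis hp2 hA hζ hpe hpx he0 hxe
    hIe hIx (u := xc x + c) hc (fun s hs => by
      have h1 : s • x = x := congrArg Subtype.val hs
      have h2 : s (xc x) = xc x := by
        rw [← xc_smul' s hx0, h1]
      rw [_root_.map_add, h2, map_natCast]) (fun s hs hne => by
      obtain ⟨-, κ, h2, h3⟩ := hact s (EC.trivMod_of_mem_inertia A hs)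
      apply h3
      intro hd
      apply hne
      apply Subtype.ext
      change s • x = x
      rw [h2, (nsmul_eq_zero_iff_dvd hq ha ha0 κ).mpr hd, add_zero])
  exact ⟨e', x'', J₀, β, he0, hx'', hIe, hIx'', hJx, H⟩

end

end Fermat.Agent.LO3
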