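import Fermat.Agent.LO3.Data

set_option autoImplicit false

/-!
# From a proper subgroup of the `p`-torsion to a line
-/

namespace Fermat.Agent.LO3

open WeierstrassCurve WeierstrassCurve.Affine WeierstrassCurve.Affine.Point Polynomial
open Fermat.Agent.EC (IsInt InE1 xX xZ IsKummer TrivMod)
open Fermat.Agent.ECP Fermat.Agent.ELoc

local notation "Qb" => AlgebraicClosure ℚ
local notation "GQ" => (AlgebraicClosure ℚ ≃ₐ[ℚ] AlgebraicClosure ℚ)

/-- a proper subgroup of the `p`-torsion is contained in a line -/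
theorem exists_line (W : WeierstrassCurve ℤ) {p : ℕ} (hp : p.Prime) (hp2 : p ≠ 2)
    (hpΔ : ¬ (p : ℤ) ∣ W.Δ)
    (N : AddSubgroup (Submodule.torsionBy ℤ ((W.map (Int.castRingHom ℚ))⁄Qb).Point (p : ℤ)))
    (hN : N ≠ ⊤) :
    ∃ b : ((W.map (Int.castRingHom ℚ))⁄Qb).Point, b ≠ 0 ∧ p • b = 0 ∧
      ∀ n ∈ N, ∃ k : ℕ, (n : ((W.map (Int.castRingHom ℚ))⁄Qb).Point) = k • b := by
  have hpK : (p : Qb) ≠ 0 := by exact_mod_cast hp.ne_zero
  obtain ⟨hfin, hle⟩ := torsion_card_le (W := ((W.map (Int.castRingHom ℚ))⁄Qb)) hp hp2 hpK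
  by_cases hbot : N = ⊥
  · obtain ⟨b, hb0, hb⟩ : ∃ b : ((W.map (Int.castRingHom ℚ))⁄Qb).Point, b ≠ 0 ∧ p • b = 0 := by
      by_contra hcon
      push Not at hcon
      have h1 : {Q : ((W.map (Int.castRingHom ℚ))⁄Qb).Point | p • Q = 0} ⊆ {0} := by
        intro Q hQ
        by_contra h0
        exact hcon Q h0 hQ
      have h2 := Set.ncard_le_ncard h1 (Set.finite_singleton _)
      rw [card_tors W hpΔ hp.pos, Set.ncard_singleton] at h2
      have h3 := hp.two_le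
      nlinarith
    refine ⟨b, hb0, hb, fun n hn => ⟨0, ?_⟩⟩
    rw [hbot, AddSubgroup.mem_bot] at hn
    rw [hn]
    exact (zero_smul ℕ b).symm
  · obtain ⟨⟨b, hbN⟩, hb0⟩ := (AddSubgroup.ne_bot_iff_exists_ne_zero (H := N)).mp hbot
    have hb0' : (b : ((W.map (Int.castRingHom ℚ))⁄Qb).Point) ≠ 0 :=
      fun h => hb0 (Subtype.ext (Subtype.ext h))
    have hb := nsmul_coe_eq_zero (W' := W.map (Int.castRingHom ℚ)) (p := p) b
    refine ⟨_, hb0', hb, fun n hn => ?_⟩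
    by_contra hcon
    push Not at hcon
    apply hN
    rw [eq_top_iff]
    intro Q _
    obtain ⟨i, j, hij⟩ := exists_repr hp hfin hle hb hb0'
      (nsmul_coe_eq_zero (W' := W.map (Int.castRingHom ℚ)) (p := p) n) hcon
      (nsmul_coe_eq_zero (W' := W.map (Int.castRingHom ℚ)) (p := p) Q)
    have h1 : Q = i • b + j • n := Subtype.ext hij
    rw [h1]
    exact add_mem (nsmul_mem hbN i) (nsmul_mem hn j)

/-- the hypothesis on inertia in terms of points -/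
theorem inertia_line (W : WeierstrassCurve ℤ) {p : ℕ} {A : ValuationSubring Qb}
    {N : AddSubgroup (Submodule.torsionBy ℤ ((W.map (Int.castRingHom ℚ))⁄Qb).Point (p : ℤ))}
    (hI : ∀ s ∈ A.inertiaSubgroupIn ℚ,
      ∀ v : Submodule.torsionBy ℤ ((W.map (Int.castRingHom ℚ))⁄Qb).Point (p : ℤ), s • v - v ∈ N)
    {b : ((W.map (Int.castRingHom ℚ))⁄Qb).Point}
    (hb : ∀ n ∈ N, ∃ k : ℕ, (n : ((W.map (Int.castRingHom ℚ))⁄Qb).Point) = k • b)
    {s : GQ} (hs : s ∈ A.inertiaSubgroupIn ℚ) (P : ((W.map (Int.castRingHom ℚ))⁄Qb).Point)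
    (hP : p • P = 0) : ∃ k : ℕ, s • P = P + k • b := by
  have hmem : P ∈ Submodule.torsionBy ℤ ((W.map (Int.castRingHom ℚ))⁄Qb).Point (p : ℤ) := by
    rw [Submodule.mem_torsionBy_iff, natCast_zsmul]
    exact hP
  obtain ⟨k, hk⟩ := hb _ (hI s hs ⟨P, hmem⟩)
  refine ⟨k, ?_⟩
  rw [← hk]
  change s • P = P + (s • P - P)
  abel

end Fermat.Agent.LO3
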