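import Fermat.Agent.ELoc.Basis

set_option autoImplicit false

/-!
# Valuations of the coordinates of `p`-torsion points, good reduction, residue characteristic `p`
-/

namespace Fermat.Agent.LO3

open WeierstrassCurve WeierstrassCurve.Affine WeierstrassCurve.Affine.Point Polynomial
open Fermat.Agent.EC (IsInt InE1 xX xZ IsKummer TrivMod)
open Fermat.Agent.ECP Fermat.Agent.ELoc

variable {K Γ₀ : Type*} [Field K] [LinearOrderedCommGroupWithZero Γ₀] {v : Valuation K Γ₀}
  {W : WeierstrassCurve.Affine K}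

/-- an integral `2`-torsion `x`-coordinate with unit `Ψ₃` -/
lemma exists_two [IsAlgClosed K] (hW : IsInt v W) (hΔ : v W.Δ = 1) (h4 : v (4 : K) = 1) :
    ∃ e' : K, v e' ≤ 1 ∧ W.Ψ₂Sq.eval e' = 0 ∧ v (W.Ψ₃.eval e') = 1 := by
  have h40 : (4 : K) ≠ 0 := by
    intro h0
    rw [h0, _root_.map_zero] at h4
    exact zero_ne_one h4
  obtain ⟨e', he'⟩ : ∃ e', W.Ψ₂Sq.eval e' = 0 := by
    have h1 : W.Ψ₂Sq.natDegree = 3 := W.natDegree_Ψ₂Sq h40
    have h2 : W.Ψ₂Sq.degree ≠ 0 := by
      intro h3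
      rw [Polynomial.degree_eq_iff_natDegree_eq_of_pos (by norm_num : 0 < 3) |>.mpr h1] at h3
      exact absurd h3 (by norm_num)
    exact IsAlgClosed.exists_root _ h2
  have h1 : v e' ≤ 1 :=
    root_le_one (intCoeff_Ψ₂Sq hW) (by rw [W.leadingCoeff_Ψ₂Sq h40, h4]) he'
  refine ⟨e', h1, he', ?_⟩
  have h2 : 4 * e' ^ 3 + W.b₂ * e' ^ 2 + 2 * W.b₄ * e' + W.b₆ = 0 := by
    rw [WeierstrassCurve.Ψ₂Sq] at he'
    simp only [eval_add, eval_mul, eval_pow, eval_C, eval_X] at he'
    exact he'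
  rcases hW.ns_of_Δ hΔ h1 with h | h
  · rw [h2, _root_.map_zero] at h
    exact absurd h zero_ne_one
  · have e1 : W.Ψ₃.eval e' = -(e' ^ 4 - W.b₄ * e' ^ 2 - 2 * W.b₆ * e' - W.b₈) := by
      rw [WeierstrassCurve.Ψ₃]
      simp only [eval_add, eval_mul, eval_pow, eval_C, eval_X, eval_ofNat]
      linear_combination e' * h2
    rw [e1, Valuation.map_neg, h]

variable [DecidableEq K]

/-- the product over the points of the kernel of reduction -/
lemma prod_big [IsAlgClosed K] (hW : IsInt v W) (hΔ : v W.Δ = 1) (h4 : v (4 : K) = 1) {p : ℕ}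
    (hp : p.Prime) (hp2 : p ≠ 2) (hpK : (p : K) ≠ 0) (hfin : {P : W.Point | p • P = 0}.Finite)
    (hcard : p ^ 2 ≤ {P : W.Point | p • P = 0}.ncard) :
    v (p : K) * ∏ a ∈ xset W p hfin with 1 < v a, v a = 1 := by
  classical
  obtain ⟨e', he', h2, h3⟩ := exists_two hW hΔ h4
  have hodd : ¬ Even p := by rw [Nat.not_even_iff_odd]; exact hp.odd_of_ne_two hp2
  have h1 := val_preΨ'_eval_two_torsion h2 h3 p hodd
  rw [eval_preΨ' hp hp2 hpK hfin hcard, map_mul, map_prod,
    ← Finset.prod_filter_mul_prod_filter_not _ (fun a => 1 < v a), ← mul_assoc] at h1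
  have h5 : ∏ a ∈ xset W p hfin with 1 < v a, v (e' - a) =
      ∏ a ∈ xset W p hfin with 1 < v a, v a := by
    refine Finset.prod_congr rfl fun a ha => ?_
    have ha' := (Finset.mem_filter.mp ha).2
    rw [Valuation.map_sub_eq_of_lt_right v (lt_of_le_of_lt he' ha')]
  rw [h5] at h1
  have h6 : v (p : K) * ∏ a ∈ xset W p hfin with 1 < v a, v a ≤ 1 := by
    have h7 := map_leadingCoeff_mul_prod_le_one (intCoeff_preΨ' hW p)
      (S := ({a ∈ xset W p hfin | 1 < v a} : Finset K).val) (by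
        rw [roots_eq_xset hp hp2 hpK hfin hcard, Finset.val_le_iff]
        exact Finset.filter_subset _ _)
    rw [W.leadingCoeff_preΨ' hpK, if_neg hodd, map_mul] at h7
    have h8 : v ({a ∈ xset W p hfin | 1 < v a} : Finset K).val.prod =
        ∏ a ∈ xset W p hfin with 1 < v a, v a := by
      rw [Finset.prod_val, map_prod]
      rfl
    rwa [h8] at h7
  have h9 : ∏ a ∈ xset W p hfin with ¬ 1 < v a, v (e' - a) ≤ 1 := by
    apply Finset.prod_le_one'
    intro a ha
    have ha' := not_lt.mp (Finset.mem_filter.mp ha).2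
    exact (v.map_sub _ _).trans (max_le he' ha')
  exact (EC.mul_eq_one_of_le h6 h9 h1).1

/-- there is a nonzero `p`-torsion point in the kernel of reduction -/
lemma exists_mem_E1 [IsAlgClosed K] (hW : IsInt v W) (hΔ : v W.Δ = 1) (h4 : v (4 : K) = 1) {p : ℕ}
    (hp : p.Prime) (hp2 : p ≠ 2) (hpK : (p : K) ≠ 0) (hvp : v (p : K) < 1)
    (hfin : {P : W.Point | p • P = 0}.Finite)
    (hcard : p ^ 2 ≤ {P : W.Point | p • P = 0}.ncard) :
    ∃ P : W.Point, P ≠ 0 ∧ p • P = 0 ∧ P ∈ E1 v hW := by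
  classical
  by_contra hcon
  push Not at hcon
  have h1 := prod_big hW hΔ h4 hp hp2 hpK hfin hcard
  have h2 : ({a ∈ xset W p hfin | 1 < v a} : Finset K) = ∅ := by
    rw [Finset.filter_eq_empty_iff]
    intro a ha hva
    obtain ⟨P, hP0, hP, rfl⟩ := (mem_xset hfin).mp ha
    exact hcon P hP0 hP ((mem_E1_iff' hW hP0).mpr hva)
  rw [h2, Finset.prod_empty, mul_one] at h1
  exact absurd h1 hvp.ne

/-- valuation of the `x`-coordinate of the points in the kernel of reduction (ordinary case) -/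
lemma val_xc_gen [IsAlgClosed K] (hW : IsInt v W) (hΔ : v W.Δ = 1) (h4 : v (4 : K) = 1) {p : ℕ}
    (hp : p.Prime) (hp2 : p ≠ 2) (hpK : (p : K) ≠ 0) (hvp : v (p : K) < 1)
    (hfin : {P : W.Point | p • P = 0}.Finite)
    (hcard : p ^ 2 ≤ {P : W.Point | p • P = 0}.ncard) {a : W.Point} (ha0 : a ≠ 0)
    (ha : p • a = 0) (ha1 : a ∈ E1 v hW)
    (hgen : ∀ Q : W.Point, p • Q = 0 → Q ∈ E1 v hW → ∃ k : ℕ, Q = k • a) :
    v (p : K) * v (xc a) ^ ((p - 1) / 2) = 1 := by
  classical
  have h1 := prod_big hW hΔ h4 hp hp2 hpK hfin hcard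
  have hodd := hp.odd_of_ne_two hp2
  obtain ⟨m, hm⟩ := hodd
  have hm' : (p - 1) / 2 = m := by omega
  have h2 : ({b ∈ xset W p hfin | 1 < v b} : Finset K) =
      (Finset.Icc 1 m).image (fun k : ℕ => xc (k • a)) := by
    ext b
    rw [Finset.mem_filter, mem_xset, Finset.mem_image]
    constructor
    · rintro ⟨⟨Q, hQ0, hQ, rfl⟩, hb⟩
      obtain ⟨k, rfl⟩ := hgen Q hQ ((mem_E1_iff' hW hQ0).mpr hb)
      have hk : ¬ p ∣ k := fun hd => hQ0 ((nsmul_eq_zero_iff_dvd hp ha ha0 k).mpr hd)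
      have hmod : k • a = (k % p) • a := by
        conv_lhs => rw [← Nat.mod_add_div k p]
        rw [add_smul, mul_comm, mul_smul, ha, smul_zero, add_zero]
      have hpos : 0 < k % p := Nat.pos_of_ne_zero fun h0 => hk (Nat.dvd_of_mod_eq_zero h0)
      have hlt : k % p < p := Nat.mod_lt _ hp.pos
      by_cases hc : k % p ≤ m
      · exact ⟨k % p, Finset.mem_Icc.mpr ⟨hpos, hc⟩, by rw [hmod]⟩
      · refine ⟨p - k % p, Finset.mem_Icc.mpr ⟨by omega, by omega⟩, ?_⟩
        have : (p - k % p) • a = -((k % p) • a) := by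
          rw [eq_neg_iff_add_eq_zero, ← add_smul, Nat.sub_add_cancel hlt.le, ha]
        rw [this, xc_neg, hmod]
    · rintro ⟨k, hk, rfl⟩
      rw [Finset.mem_Icc] at hk
      have hkp : ¬ p ∣ k := fun hd => by have := Nat.le_of_dvd (by omega) hd; omega
      obtain ⟨h3, h4', -⟩ := xc_nsmul hW hp hvp ha0 ha1 hkp
      refine ⟨⟨k • a, h3, ?_, rfl⟩, ?_⟩
      · rw [smul_comm, ha, smul_zero]
      · rw [h4']
        exact (mem_E1_iff' hW ha0).mp ha1
  have hinj : Set.InjOn (fun k : ℕ => xc (k • a)) (Finset.Icc 1 m : Finset ℕ) := by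
    intro k hk l hl hkl
    rw [Finset.coe_Icc, Set.mem_Icc] at hk hl
    have hkp : ¬ p ∣ k := fun hd => by have := Nat.le_of_dvd (by omega) hd; omega
    have hlp : ¬ p ∣ l := fun hd => by have := Nat.le_of_dvd (by omega) hd; omega
    have hk0 := (xc_nsmul hW hp hvp ha0 ha1 hkp).1
    have hl0 := (xc_nsmul hW hp hvp ha0 ha1 hlp).1
    rcases (xc_eq_iff hk0 hl0).mp hkl with h5 | h5
    · rcases le_total k l with hle | hle
      · have h6 : (l - k) • a = 0 := by
          rw [← add_left_inj (k • a), ← add_smul, Nat.sub_add_cancel hle, zero_add, h5]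
        have h7 := (nsmul_eq_zero_iff_dvd hp ha ha0 _).mp h6
        rcases Nat.eq_zero_or_pos (l - k) with h8 | h8
        · omega
        · have := Nat.le_of_dvd h8 h7
          omega
      · have h6 : (k - l) • a = 0 := by
          rw [← add_left_inj (l • a), ← add_smul, Nat.sub_add_cancel hle, zero_add, h5]
        have h7 := (nsmul_eq_zero_iff_dvd hp ha ha0 _).mp h6
        rcases Nat.eq_zero_or_pos (k - l) with h8 | h8
        · omega
        · have := Nat.le_of_dvd h8 h7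
          omega
    · exfalso
      have h6 : (k + l) • a = 0 := by rw [add_smul, h5, neg_add_cancel]
      have h7 := (nsmul_eq_zero_iff_dvd hp ha ha0 _).mp h6
      have := Nat.le_of_dvd (by omega) h7
      omega
  rw [h2, Finset.prod_image hinj] at h1
  rw [hm', ← h1]
  congr 1
  rw [Finset.prod_congr rfl (g := fun _ => v (xc a)), Finset.prod_const, Nat.card_Icc,
    Nat.add_sub_cancel]
  intro k hk
  rw [Finset.mem_Icc] at hk
  have hkp : ¬ p ∣ k := fun hd => by have := Nat.le_of_dvd (by omega) hd; omega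
  exact (xc_nsmul hW hp hvp ha0 ha1 hkp).2.1

/-- a torsion point of odd order outside the kernel of reduction does not reduce to `2`-torsion -/
lemma val_tc (hW : IsInt v W) (hΔ : v W.Δ = 1) {p : ℕ} (hp : Odd p) {P : W.Point}
    (hP : p • P = 0) (hP1 : P ∉ E1 v hW) : v (tc P) = 1 := by
  have hP0 : P ≠ 0 := by rintro rfl; exact hP1 (zero_mem _)
  have hx : v (xc P) ≤ 1 := by
    rw [mem_E1_iff' hW hP0, not_lt] at hP1
    exact hP1
  obtain ⟨x, y, hxy, rfl⟩ := exists_eq_some hP0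
  rw [xc_some] at hx
  have hy : v y ≤ 1 := hW.y_le_one hxy.1 hx
  have h2 : v (2 : K) ≤ 1 := by exact_mod_cast EC.val_natCast_le_one v 2
  have hle : v (tc (Point.some x y hxy : W.Point)) ≤ 1 := by
    rw [tc_some]
    refine (v.map_add _ _).trans (max_le ((v.map_add _ _).trans (max_le ?_ ?_)) hW.a₃)
    · rw [map_mul]; exact mul_le_one' h2 hy
    · rw [map_mul]; exact mul_le_one' hW.a₁ hx
  by_contra hne
  have hlt : v (tc (Point.some x y hxy : W.Point)) < 1 := lt_of_le_of_ne hle hne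
  have hneg : W.Nonsingular x (W.negY x y) := (W.nonsingular_neg x y).mpr hxy
  have h3 := hW.sub_inE1 hxy hneg hx (by rw [sub_self, _root_.map_zero]; exact zero_lt_one) (by
    have e : y - W.negY x y = tc (Point.some x y hxy : W.Point) := by
      rw [tc_some, Affine.negY]; ring
    rw [e]
    exact hlt) (hW.ns_of_Δ hΔ hx)
  have e2 : (Point.some x y hxy : W.Point) - Point.some x (W.negY x y) hneg =
      (2 : ℕ) • (Point.some x y hxy : W.Point) := by
    have e3 : (Point.some x (W.negY x y) hneg : W.Point) = -(Point.some x y hxy : W.Point) := rfl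
    rw [e3, sub_neg_eq_add, two_nsmul]
  rw [e2] at h3
  have h4 : (2 : ℕ) • (Point.some x y hxy : W.Point) ∈ E1 v hW := (mem_E1_iff hW).mpr h3
  obtain ⟨m, hm⟩ := hp
  apply hP1
  have h5 : (Point.some x y hxy : W.Point) = -(m • (2 : ℕ) • (Point.some x y hxy : W.Point)) := by
    rw [eq_neg_iff_add_eq_zero, smul_smul, ← hP, hm, add_smul, one_smul, mul_comm m 2, add_comm]
  rw [h5]
  exact neg_mem (nsmul_mem h4 m)

/-- **The Kummer class**: the change of the `x`-coordinate by a point of the kernel of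
reduction. -/
theorem val_diff (hW : IsInt v W) (h4 : v (4 : K) = 1) {P Q : W.Point} (hP0 : P ≠ 0)
    (hPx : v (xc P) ≤ 1) (htP : v (tc P) = 1) (hQ0 : Q ≠ 0) (hQ : Q ∈ E1 v hW) {g : Γ₀}
    (hg : v (xc Q) * g ^ 2 = 1) : v (xc (P + Q) - xc P) = g := by
  have hx1 : 1 < v (xc Q) := (mem_E1_iff' hW hQ0).mp hQ
  have hne : xc P ≠ xc Q := by
    intro h
    rw [h] at hPx
    exact absurd hx1 (not_lt.mpr hPx)
  have h2 : v (2 : K) = 1 := by
    have h5 : (4 : K) = 2 * 2 := by norm_num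
    have h6 : v (2 : K) ≤ 1 := by exact_mod_cast EC.val_natCast_le_one v 2
    rw [h5, map_mul] at h4
    exact (EC.mul_eq_one_of_le h6 h6 h4).1
  set x := xc P with hx
  set X := xc Q with hX
  set t := tc P with ht
  set T := tc Q with hT
  set z := xc (P + Q) with hz
  have hA1 := A1 hP0 hQ0 hne
  have hA3 := A3 hP0 hQ0 hne
  simp only [← hx, ← hX, ← ht, ← hT, ← hz] at hA1 hA3
  have hvX0 : 0 < v X := zero_lt_one.trans hx1
  have hvt : v T ^ 2 = v X ^ 3 := by
    have h1 := (tc_sq_cg hW hQ0 hx1).val_eq_one h4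
    rw [map_div₀, map_pow, map_pow, div_eq_one_iff_eq (pow_ne_zero 3 hvX0.ne')] at h1
    exact h1
  -- the main identity
  set S : K := 6 * x ^ 2 * X + W.b₂ * x * X + W.b₄ * X + (W.b₄ * x + W.b₆ - 2 * x ^ 3) with hS
  have hmain : 2 * (z - x) * (x - X) ^ 2 = S - t * T := by
    have hS' : S = 6 * x ^ 2 * X + W.b₂ * x * X + W.b₄ * X + (W.b₄ * x + W.b₆ - 2 * x ^ 3) := hS
    rw [hS']
    linear_combination hA1 - hA3
  have hSle : v S ≤ v X := by
    have hx' : x ∈ v.integer := hPx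
    have i2 : W.b₂ ∈ v.integer := hW.b₂
    have i4 : W.b₄ ∈ v.integer := hW.b₄
    have i6 : W.b₆ ∈ v.integer := hW.b₆
    have j2 := EC.ofNat_mem_integer v 2
    have j6 := EC.ofNat_mem_integer v 6
    have k1 : v (6 * x ^ 2 + W.b₂ * x + W.b₄) ≤ 1 :=
      add_mem (add_mem (mul_mem j6 (pow_mem hx' 2)) (mul_mem i2 hx')) i4
    have k2 : v (W.b₄ * x + W.b₆ - 2 * x ^ 3) ≤ 1 :=
      sub_mem (add_mem (mul_mem i4 hx') i6) (mul_mem j2 (pow_mem hx' 3))
    have e : S = (6 * x ^ 2 + W.b₂ * x + W.b₄) * X + (W.b₄ * x + W.b₆ - 2 * x ^ 3) := by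
      rw [hS]; ring
    rw [e]
    refine (v.map_add _ _).trans (max_le ?_ (k2.trans hx1.le))
    rw [map_mul]
    exact mul_le_of_le_one_left' k1
  have hXT : v X < v T := by
    have h5 : v X ^ 2 < v T ^ 2 := by
      rw [hvt]
      exact pow_lt_pow_right₀ hx1 (by norm_num)
    exact lt_of_pow_lt_pow_left₀ 2 zero_le h5
  have h7 : v (S - t * T) = v T := by
    rw [Valuation.map_sub_eq_of_lt_right v, map_mul, htP, one_mul]
    rw [map_mul, htP, one_mul]
    exact lt_of_le_of_lt hSle hXT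
  have h8 : v (x - X) = v X := Valuation.map_sub_eq_of_lt_right v (lt_of_le_of_lt hPx hx1)
  have h9 : v (z - x) * v X ^ 2 = v T := by
    rw [← h7, ← hmain, map_mul, map_mul, map_pow, h2, one_mul, h8]
  have h10 : v (z - x) ^ 2 * v X = 1 := by
    have h13 : (v (z - x) * v X ^ 2) ^ 2 = v X ^ 3 := by rw [h9, hvt]
    have h11 : (v (z - x) ^ 2 * v X) * v X ^ 3 = 1 * v X ^ 3 := by
      rw [one_mul]
      refine Eq.trans ?_ h13
      rw [mul_pow, mul_assoc, ← pow_succ', ← pow_mul]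
    exact mul_right_cancel₀ (pow_ne_zero 3 hvX0.ne') h11
  have h12 : v (z - x) ^ 2 = g ^ 2 := by
    apply mul_right_cancel₀ hvX0.ne'
    rw [h10, mul_comm, hg]
  exact (pow_left_inj₀ zero_le zero_le two_ne_zero).mp h12

end Fermat.Agent.LO3
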